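import Mathlib

/-!
# Lib/KW — piece QUOT (helper530), Mathlib-only

Exact statement of `Fermat.Agent.Lib.KW.Skel.finrank_quotient_eq_card_factors` (skeleton of
helper650, `coord/KW-bridge-helper650.md`): in a Dedekind domain `B` over a field `k` all of whose
residue fields are `k`, `dim_k B ⧸ I` is the number of prime factors of `I` (with multiplicity).
-/

set_option autoImplicit false

noncomputable section

namespace Fermat.Agent.Lib.KW.H530

open Module UniqueFactorizationMonoid

variable {k B : Type*} [Field k] [CommRing B] [Algebra k B]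

/-- Between `P * J` and `J` there is no ideal (`P` maximal, Dedekind domain). -/
theorem span_sup_mul_eq530 [IsDedekindDomain B] {P J : Ideal B} (hP : P.IsMaximal)
    (hJ : J ≠ ⊥) (hP0 : P ≠ ⊥) {x : B} (hxJ : x ∈ J) (hx : x ∉ P * J) :
    Ideal.span {x} ⊔ P * J = J := by
  set I' := Ideal.span {x} ⊔ P * J with hI'
  have hI'J : I' ≤ J := sup_le ((Ideal.span_singleton_le_iff_mem J).mpr hxJ) Ideal.mul_le_right
  have hPJI' : P * J ≤ I' := le_sup_right
  obtain ⟨C, hC⟩ := Ideal.dvd_iff_le.mpr hI'J
  have hCP : C ∣ P := by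
    have h1 : J * C ∣ J * P := by
      rw [← hC, mul_comm J P]
      exact Ideal.dvd_iff_le.mpr hPJI'
    exact (mul_dvd_mul_iff_left hJ).mp h1
  have hprime : Prime P := Ideal.prime_of_isPrime hP0 hP.isPrime
  rcases hprime.irreducible.dvd_iff.mp hCP with hu | ha
  · have : C = ⊤ := Ideal.isUnit_iff.mp hu
    rw [hC, this, Ideal.mul_top]
  · exfalso
    have hCeq : C = P := (associated_iff_eq.mp ha).symm
    apply hx
    have hxI' : x ∈ I' := Ideal.mem_sup_left (Ideal.mem_span_singleton_self x)
    rw [hC, hCeq, mul_comm] at hxI'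
    exact hxI'

/-- The step of the induction: multiplying by a maximal ideal with residue field `k` raises the
dimension of the quotient by one. -/
theorem finrank_quotient_mul530 [IsDedekindDomain B]
    (hres : ∀ P : Ideal B, P.IsMaximal → Function.Surjective (algebraMap k (B ⧸ P)))
    {P J : Ideal B} (hP : P.IsMaximal) (hP0 : P ≠ ⊥) (hJ : J ≠ ⊥) [Module.Finite k (B ⧸ J)] :
    Module.Finite k (B ⧸ (P * J)) ∧
      Module.finrank k (B ⧸ (P * J)) = Module.finrank k (B ⧸ J) + 1 := by
  have hle : P * J ≤ J := Ideal.mul_le_right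
  have hne : P * J ≠ J := by
    intro h
    have h1 : P * J = 1 * J := by rw [one_mul]; exact h
    have h2 : P = 1 := mul_right_cancel₀ hJ h1
    exact hP.ne_top (by simpa using h2)
  obtain ⟨x, hxJ, hx⟩ : ∃ x ∈ J, x ∉ P * J := by
    by_contra hcon
    apply hne
    refine le_antisymm hle fun y hy => ?_
    by_contra hy'
    exact hcon ⟨y, hy, hy'⟩
  let φ : (B ⧸ (P * J)) →ₗ[k] (B ⧸ J) := (Ideal.Quotient.factorₐ k hle).toLinearMap
  have hφsurj : Function.Surjective φ := Ideal.Quotient.factor_surjective hle
  have hφmk : ∀ b : B, φ (Ideal.Quotient.mk (P * J) b) = Ideal.Quotient.mk J b := fun b => rfl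
  set xb : B ⧸ (P * J) := Ideal.Quotient.mk (P * J) x with hxb
  have hxb0 : xb ≠ 0 := fun h => hx (Ideal.Quotient.eq_zero_iff_mem.mp h)
  have hker : LinearMap.ker φ = Submodule.span k {xb} := by
    apply le_antisymm
    · intro y hy
      obtain ⟨b, rfl⟩ := Ideal.Quotient.mk_surjective y
      rw [LinearMap.mem_ker, hφmk, Ideal.Quotient.eq_zero_iff_mem] at hy
      rw [← span_sup_mul_eq530 hP hJ hP0 hxJ hx, Submodule.mem_sup] at hy
      obtain ⟨u, hu, w, hw, rfl⟩ := hy
      obtain ⟨c, rfl⟩ := Ideal.mem_span_singleton'.mp hu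
      obtain ⟨a, ha⟩ := hres P hP (Ideal.Quotient.mk P c)
      have hca : c - algebraMap k B a ∈ P := by
        rw [← Ideal.Quotient.eq, ← ha]
        rfl
      rw [Submodule.mem_span_singleton]
      refine ⟨a, ?_⟩
      rw [hxb, Algebra.smul_def]
      have : (algebraMap k (B ⧸ P * J)) a = Ideal.Quotient.mk (P * J) (algebraMap k B a) := rfl
      rw [this, ← map_mul, eq_comm, Ideal.Quotient.eq]
      have h1 : c * x + w - algebraMap k B a * x = (c - algebraMap k B a) * x + w := by ring
      rw [h1]
      exact (P * J).add_mem (Ideal.mul_mem_mul hca hxJ) hw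
    · rw [Submodule.span_singleton_le_iff_mem, LinearMap.mem_ker, hxb, hφmk,
        Ideal.Quotient.eq_zero_iff_mem]
      exact hxJ
  have hkerfin : Module.Finite k (LinearMap.ker φ) := by
    rw [hker]
    infer_instance
  have hkerrank : Module.finrank k (LinearMap.ker φ) = 1 := by
    rw [hker]
    exact finrank_span_singleton hxb0
  have hquotfin : Module.Finite k ((B ⧸ (P * J)) ⧸ LinearMap.ker φ) :=
    Module.Finite.equiv (φ.quotKerEquivOfSurjective hφsurj).symm
  have hfin : Module.Finite k (B ⧸ (P * J)) :=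
    Module.Finite.of_submodule_quotient (LinearMap.ker φ)
  refine ⟨hfin, ?_⟩
  have h := LinearMap.finrank_range_add_finrank_ker φ
  rw [LinearMap.range_eq_top.mpr hφsurj, finrank_top, hkerrank] at h
  exact h.symm

/-- **QUOT** (exact statement of the KW skeleton).  In a Dedekind domain over a field `k` all of
whose residue fields are `k`, the quotient by a nonzero ideal has dimension the number of prime
factors (with multiplicity). -/
theorem finrank_quotient_eq_card_factors
    {k B : Type*} [Field k] [CommRing B] [IsDedekindDomain B] [Algebra k B]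
    (hres : ∀ P : Ideal B, P.IsMaximal → Function.Surjective (algebraMap k (B ⧸ P)))
    (I : Ideal B) (hI : I ≠ ⊥) :
    Module.Finite k (B ⧸ I) ∧
      Module.finrank k (B ⧸ I) = Multiset.card (normalizedFactors I) := by
  revert hI
  refine UniqueFactorizationMonoid.induction_on_prime I ?_ ?_ ?_
  · intro h
    exact absurd rfl h
  · intro J hJ _
    have hJtop : J = ⊤ := Ideal.isUnit_iff.mp hJ
    subst hJtop
    have hsub : Subsingleton (B ⧸ (⊤ : Ideal B)) := Ideal.Quotient.subsingleton_iff.mpr rfl
    refine ⟨inferInstance, ?_⟩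
    rw [finrank_zero_of_subsingleton]
    have : normalizedFactors (⊤ : Ideal B) = 0 := by
      rw [← Ideal.one_eq_top]
      exact normalizedFactors_one
    rw [this, Multiset.card_zero]
  · intro J P hJ hP ih hPJ
    have hJ' : J ≠ ⊥ := hJ
    have hP0 : P ≠ ⊥ := hP.ne_zero
    have hPprime : P.IsPrime := Ideal.isPrime_of_prime hP
    have hPmax : P.IsMaximal := Ring.DimensionLEOne.maximalOfPrime hP0 hPprime
    obtain ⟨hfin, hrank⟩ := ih hJ'
    obtain ⟨hfin', hrank'⟩ := finrank_quotient_mul530 hres hPmax hP0 hJ'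
    refine ⟨hfin', ?_⟩
    rw [hrank', hrank, normalizedFactors_mul hP0 hJ, normalizedFactors_irreducible hP.irreducible,
      Multiset.card_add, normalize_eq, Multiset.card_singleton, add_comm]

end Fermat.Agent.Lib.KW.H530
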