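import Mathlib

/-!
# Lib/KW — piece TAME (helper530), Mathlib-only

Exact statement of `Fermat.Agent.Lib.KW.Skel.count_differentIdeal_eq` (skeleton of helper650,
`coord/KW-bridge-helper650.md`): `Fermat.Agent.Lib.KW.H530.count_differentIdeal_eq`.

`A ⊆ B` Dedekind domains, `B` finite over `A`, separable fraction fields, `p` a maximal ideal
of `A` whose residue field has characteristic zero.  If `pB = I * Q` with `I`, `Q` coprime and
`I ≠ ⊤`, then `I` does not divide the different `𝔇(B/A)`.  In particular `P ^ e ∤ 𝔇` for
`e` the ramification index of a prime `P` over `p` (tame ramification), so that together with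
Mathlib's `pow_sub_one_dvd_differentIdeal` the exponent of `P` in `𝔇` is exactly `e - 1`.
-/

set_option autoImplicit false

noncomputable section

namespace Fermat.Agent.Lib.KW.H530

open Module UniqueFactorizationMonoid

attribute [local instance] Ideal.Quotient.field FractionRing.liftAlgebra
  FractionRing.isScalarTower_liftAlgebra

variable {A B : Type*} [CommRing A] [CommRing B] [Algebra A B]

/-- The trace of (multiplication by) an idempotent element of a finite-dimensional algebra over
a field is the dimension of its range. -/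
theorem trace_of_isIdempotentElem530 {k R : Type*} [Field k] [CommRing R] [Algebra k R]
    [FiniteDimensional k R] (x : R) (hx : IsIdempotentElem x) :
    Algebra.trace k R x = (finrank k (LinearMap.range (LinearMap.mulLeft k x)) : k) := by
  have hproj : LinearMap.IsProj (LinearMap.range (LinearMap.mulLeft k x))
      (LinearMap.mulLeft k x) := by
    refine ⟨fun y => LinearMap.mem_range_self _ y, ?_⟩
    rintro _ ⟨y, rfl⟩
    simp only [LinearMap.mulLeft_apply]
    rw [← mul_assoc, hx.eq]
  have := hproj.trace
  rw [Algebra.trace_apply]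
  exact this

/-- **TAME, coprime form.**  If `pB = I * Q` with `I`, `Q` coprime, `I ≠ ⊤`, and the residue field
`A ⧸ p` has characteristic zero, then `I` does not divide the different. -/
theorem not_dvd_differentIdeal_of_coprime530
    [IsDedekindDomain A] [IsDedekindDomain B] [Module.Finite A B] [IsTorsionFree A B]
    [Algebra.IsSeparable (FractionRing A) (FractionRing B)]
    (p : Ideal A) [p.IsMaximal] [CharZero (A ⧸ p)]
    (I Q : Ideal B) (hIQ : I * Q = p.map (algebraMap A B)) (hcop : IsCoprime I Q) (hI : I ≠ ⊤) :
    ¬ I ∣ differentIdeal A B := by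
  obtain ⟨i, hi, x, hxQ, hix⟩ := Ideal.isCoprime_iff_exists.mp hcop
  refine not_dvd_differentIdeal_of_intTrace_not_mem (A := A) I Q hIQ x hxQ ?_
  intro hmem
  have htr := Algebra.trace_quotient_eq_of_isDedekindDomain (S := B) p x
  rw [Ideal.Quotient.eq_zero_iff_mem.mpr hmem] at htr
  have hidem : IsIdempotentElem (Ideal.Quotient.mk (p.map (algebraMap A B)) x) := by
    unfold IsIdempotentElem
    rw [← map_mul, Ideal.Quotient.eq, ← hIQ]
    have : x * x - x = -(i * x) := by
      have : i = 1 - x := by rw [← hix]; ring
      rw [this]; ring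
    rw [this]
    exact Ideal.neg_mem_iff _ |>.mpr (Ideal.mul_mem_mul hi hxQ)
  rw [trace_of_isIdempotentElem530 _ hidem] at htr
  have hzero : finrank (A ⧸ p) (LinearMap.range (LinearMap.mulLeft (A ⧸ p)
      (Ideal.Quotient.mk (p.map (algebraMap A B)) x))) = 0 := by
    exact_mod_cast htr
  have hbot := Submodule.finrank_eq_zero.mp hzero
  have hx0 : Ideal.Quotient.mk (p.map (algebraMap A B)) x = 0 := by
    have h1 : Ideal.Quotient.mk (p.map (algebraMap A B)) x ∈
        LinearMap.range (LinearMap.mulLeft (A ⧸ p)
          (Ideal.Quotient.mk (p.map (algebraMap A B)) x)) :=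
      ⟨1, by simp⟩
    rw [hbot] at h1
    simpa using h1
  have hxI : x ∈ I := by
    have h2 : x ∈ p.map (algebraMap A B) := Ideal.Quotient.eq_zero_iff_mem.mp hx0
    have h3 : p.map (algebraMap A B) ≤ I := hIQ ▸ Ideal.mul_le_left
    exact h3 h2
  apply hI
  rw [Ideal.eq_top_iff_one, ← hix]
  exact I.add_mem hi hxI

/-- **TAME.** Residue characteristic zero: the full power `P ^ e` of a prime `P` above `p`
(`e` = exponent of `P` in `pB`) does not divide the different. -/
theorem not_pow_count_dvd_differentIdeal530
    [IsDedekindDomain A] [IsDedekindDomain B] [Module.Finite A B] [IsTorsionFree A B]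
    [Algebra.IsSeparable (FractionRing A) (FractionRing B)]
    (p : Ideal A) [p.IsMaximal] [CharZero (A ⧸ p)] (hp : p ≠ ⊥)
    (P : Ideal B) [P.IsMaximal] (hP : p.map (algebraMap A B) ≤ P) :
    ¬ P ^ (Multiset.count P (normalizedFactors (p.map (algebraMap A B)))) ∣
      differentIdeal A B := by
  have hpB : p.map (algebraMap A B) ≠ ⊥ := Ideal.map_ne_bot_of_ne_bot hp
  obtain ⟨Q, hsup, hfac⟩ := Ideal.eq_prime_pow_mul_coprime hpB P
  set e := Multiset.count P (normalizedFactors (p.map (algebraMap A B))) with he
  have hP0 : P ≠ ⊥ := fun h => hpB (le_bot_iff.mp (h ▸ hP))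
  have hepos : 0 < e := by
    rw [he, Multiset.count_pos]
    have hprime : Prime P := Ideal.prime_of_isPrime hP0 inferInstance
    obtain ⟨q, hq, hassoc⟩ := exists_mem_normalizedFactors_of_dvd hpB hprime.irreducible
      (Ideal.dvd_iff_le.mpr hP)
    rwa [associated_iff_eq.mp hassoc]
  refine not_dvd_differentIdeal_of_coprime530 p (P ^ e) Q hfac.symm ?_ ?_
  · exact (Ideal.isCoprime_iff_sup_eq.mpr hsup).pow_left
  · intro htop
    have hle : P ^ e ≤ P := Ideal.pow_le_self hepos.ne'
    rw [htop] at hle
    exact (inferInstance : P.IsMaximal).ne_top (top_le_iff.mp hle)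

/-- **TAME, exact exponent.** In residue characteristic zero the exponent of `P` in the different
is `e - 1`. -/
theorem count_differentIdeal530
    [IsDedekindDomain A] [IsDedekindDomain B] [Module.Finite A B] [IsTorsionFree A B]
    [Algebra.IsSeparable (FractionRing A) (FractionRing B)]
    (p : Ideal A) [p.IsMaximal] [CharZero (A ⧸ p)] (hp : p ≠ ⊥)
    (P : Ideal B) [P.IsMaximal] (hP : p.map (algebraMap A B) ≤ P) :
    Multiset.count P (normalizedFactors (differentIdeal A B)) =
      Multiset.count P (normalizedFactors (p.map (algebraMap A B))) - 1 := by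
  have hpB : p.map (algebraMap A B) ≠ ⊥ := Ideal.map_ne_bot_of_ne_bot hp
  have hP0 : P ≠ ⊥ := fun h => hpB (le_bot_iff.mp (h ▸ hP))
  have hprime : Prime P := Ideal.prime_of_isPrime hP0 inferInstance
  set e := Multiset.count P (normalizedFactors (p.map (algebraMap A B))) with he
  have hepos : 0 < e := by
    rw [he, Multiset.count_pos]
    obtain ⟨q, hq, hassoc⟩ := exists_mem_normalizedFactors_of_dvd hpB hprime.irreducible
      (Ideal.dvd_iff_le.mpr hP)
    rwa [associated_iff_eq.mp hassoc]
  have hdvd : P ^ e ∣ p.map (algebraMap A B) := by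
    obtain ⟨Q, -, hfac⟩ := Ideal.eq_prime_pow_mul_coprime hpB P
    exact Dvd.intro Q hfac.symm
  have h1 : P ^ (e - 1) ∣ differentIdeal A B := pow_sub_one_dvd_differentIdeal A P e hp hdvd
  have h2 : ¬ P ^ (e - 1 + 1) ∣ differentIdeal A B := by
    rw [Nat.sub_add_cancel hepos]
    exact not_pow_count_dvd_differentIdeal530 p hp P hP
  exact count_normalizedFactors_eq hprime.irreducible (normalize_eq P) h1 h2


/-- **TAME** (exact statement of the KW skeleton).  Tame ramification: the exact exponent of a
prime in the different, in residue characteristic zero. -/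
theorem count_differentIdeal_eq
    {A B : Type*} [CommRing A] [IsDedekindDomain A] [CommRing B] [IsDedekindDomain B]
    [Algebra A B] [Module.Finite A B] [Module.IsTorsionFree A B]
    [Algebra.IsSeparable (FractionRing A) (FractionRing B)]
    (p : Ideal A) [p.IsMaximal] (hp : p ≠ ⊥) [CharZero (A ⧸ p)]
    (P : Ideal B) [P.IsPrime] (hP : P ≠ ⊥) [P.LiesOver p] :
    (UniqueFactorizationMonoid.normalizedFactors (differentIdeal A B)).count P =
      (UniqueFactorizationMonoid.normalizedFactors (p.map (algebraMap A B))).count P - 1 := by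
  have : P.IsMaximal := Ring.DimensionLEOne.maximalOfPrime hP inferInstance
  have hle : p.map (algebraMap A B) ≤ P := by
    rw [Ideal.map_le_iff_le_comap]
    exact (Ideal.over_def P p).le
  exact count_differentIdeal530 p hp P hle

end Fermat.Agent.Lib.KW.H530
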