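import Mathlib

/-!
# Lib/KW — piece DISC (helper530), Mathlib-only

Exact statement of `Fermat.Agent.Lib.KW.Skel.natDegree_add_eq` (skeleton of helper650,
`coord/KW-bridge-helper650.md`): the abstract discriminant identity of the two-chart argument.
If `disc(b) = Ds(s)`, `disc(b') = Dt(s⁻¹)` and `s⁻ᵐ b = Tt(s⁻¹) b'`, then
`deg Dt + 2 deg det Tt + ord_{X = 0} Ds = 2 m n`.
-/

set_option autoImplicit false

noncomputable section

namespace Fermat.Agent.Lib.KW.H530

open Polynomial

variable {K F : Type*} [Field K] [Field F] [Algebra K F] {ι : Type*} [Fintype ι]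

/-- The discriminant of a family scaled by a scalar. -/
theorem discr_smul530 {E : Type*} [Field E] [Algebra E F] [DecidableEq ι] (c : E) (b : ι → F) :
    Algebra.discr E (fun i => c • b i) = (c ^ Fintype.card ι) ^ 2 * Algebra.discr E b := by
  have h := Algebra.discr_of_matrix_mulVec b (Matrix.diagonal fun _ : ι => c)
  have hvec : ((Matrix.diagonal fun _ : ι => c).map (algebraMap E F)).mulVec b =
      fun i => c • b i := by
    funext i
    rw [Matrix.mulVec, dotProduct, Finset.sum_eq_single i]
    · simp [Algebra.smul_def]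
    · intro j _ hji
      simp [Matrix.diagonal_apply_ne _ (Ne.symm hji)]
    · intro hi
      exact absurd (Finset.mem_univ i) hi
  rw [hvec] at h
  rw [h, Matrix.det_diagonal, Finset.prod_const, Finset.card_univ]

omit [Algebra K F] in
/-- The discriminant of a family obtained by a polynomial matrix evaluated at `t`. -/
theorem discr_aeval_matrix530 {E : Type*} [Field E] [Algebra K E] [Algebra E F]
    [DecidableEq ι] (t : E) (T : Matrix ι ι K[X]) (b' : ι → F) :
    Algebra.discr E (fun i => ∑ j, (aeval t (T i j)) • b' j) =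
      (aeval t T.det) ^ 2 * Algebra.discr E b' := by
  have h := Algebra.discr_of_matrix_mulVec b' (T.map (aeval t : K[X] → E))
  have hvec : ((T.map (aeval t : K[X] → E)).map (algebraMap E F)).mulVec b' =
      fun i => ∑ j, (aeval t (T i j)) • b' j := by
    funext i
    rw [Matrix.mulVec, dotProduct]
    refine Finset.sum_congr rfl fun j _ => ?_
    simp [Algebra.smul_def]
  rw [hvec] at h
  rw [h]
  congr 2
  have := (AlgHom.map_det (aeval t : K[X] →ₐ[K] E) T).symm
  simpa [AlgHom.mapMatrix_apply] using this

/-- **DISC** (exact statement of the KW skeleton): the abstract discriminant identity. -/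
theorem natDegree_add_eq {E : Type*} [Field E] [Algebra K E] [Algebra E F] [IsScalarTower K E F]
    [DecidableEq ι] (s : E) (hs : Transcendental K s) (b b' : ι → F)
    (Ds Dt : K[X]) (hDs : Algebra.discr E b = aeval s Ds) (hDt : Algebra.discr E b' = aeval s⁻¹ Dt)
    (hDs0 : Ds ≠ 0) (hDt0 : Dt ≠ 0)
    (m : ℕ) (Tt : Matrix ι ι K[X]) (hTdet : Tt.det ≠ 0)
    (hT : ∀ i, (s⁻¹ ^ m) • b i = ∑ j, (aeval s⁻¹ (Tt i j)) • b' j) :
    Dt.natDegree + 2 * Tt.det.natDegree + Ds.rootMultiplicity 0 = 2 * m * Fintype.card ι := by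
  classical
  set n := Fintype.card ι with hn
  set t : E := s⁻¹ with ht
  have hs0 : s ≠ 0 := by
    rintro rfl
    exact hs (isAlgebraic_zero)
  have ht0 : t ≠ 0 := inv_ne_zero hs0
  have htr : Transcendental K t := by
    intro halg
    apply hs
    have := halg.inv
    rwa [ht, inv_inv] at this
  have hinj : Function.Injective (aeval t : K[X] → E) :=
    transcendental_iff_injective.mp htr
  -- the two computations of the discriminant of `t ^ m • b`
  have h1 : Algebra.discr E (fun i => (t ^ m) • b i) = ((t ^ m) ^ n) ^ 2 * aeval s Ds := by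
    rw [discr_smul530, hDs]
  have h2 : Algebra.discr E (fun i => (t ^ m) • b i) = (aeval t Tt.det) ^ 2 * aeval t Dt := by
    have : (fun i => (t ^ m) • b i) = fun i => ∑ j, (aeval t (Tt i j)) • b' j := funext hT
    rw [this, discr_aeval_matrix530, hDt]
  -- `Ds(s) = rev(Ds)(t) * s ^ deg Ds`
  have hrev : aeval s Ds = aeval t Ds.reverse * s ^ Ds.natDegree := by
    let _ : Invertible s := invertibleOfNonzero hs0
    have := eval₂_reverse_mul_pow (algebraMap K E) s Ds
    rw [invOf_eq_inv] at this
    simpa [aeval_def] using this.symm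
  -- polynomial identity
  have hpoly : (X : K[X]) ^ (2 * m * n) * Ds.reverse = X ^ Ds.natDegree * (Tt.det ^ 2 * Dt) := by
    apply hinj
    simp only [map_mul, map_pow, aeval_X]
    have h3 : ((t ^ m) ^ n) ^ 2 * (aeval t Ds.reverse * s ^ Ds.natDegree) =
        (aeval t Tt.det) ^ 2 * aeval t Dt := by
      rw [← hrev, ← h1, h2]
    have hts : t * s = 1 := inv_mul_cancel₀ hs0
    calc t ^ (2 * m * n) * aeval t Ds.reverse
        = t ^ Ds.natDegree * (((t ^ m) ^ n) ^ 2 * (aeval t Ds.reverse * s ^ Ds.natDegree)) := by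
          have : t ^ Ds.natDegree * s ^ Ds.natDegree = 1 := by
            rw [← mul_pow, hts, one_pow]
          calc t ^ (2 * m * n) * aeval t Ds.reverse
              = (t ^ (2 * m * n) * aeval t Ds.reverse) * (t ^ Ds.natDegree * s ^ Ds.natDegree) := by
                rw [this, mul_one]
            _ = t ^ Ds.natDegree *
                (((t ^ m) ^ n) ^ 2 * (aeval t Ds.reverse * s ^ Ds.natDegree)) := by
                ring
      _ = t ^ Ds.natDegree * ((aeval t Tt.det) ^ 2 * aeval t Dt) := by rw [h3]
  have hrev0 : Ds.reverse ≠ 0 := by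
    rwa [Ne, Polynomial.reverse_eq_zero]
  have hdeg := congrArg natDegree hpoly
  rw [natDegree_mul (pow_ne_zero _ X_ne_zero) hrev0,
    natDegree_mul (pow_ne_zero _ X_ne_zero) (mul_ne_zero (pow_ne_zero _ hTdet) hDt0),
    natDegree_mul (pow_ne_zero _ hTdet) hDt0, natDegree_X_pow, natDegree_X_pow, natDegree_pow,
    reverse_natDegree] at hdeg
  have htrail : Ds.rootMultiplicity 0 = Ds.natTrailingDegree := by
    rw [rootMultiplicity_eq_natTrailingDegree]
    simp
  have hle : Ds.natTrailingDegree ≤ Ds.natDegree := natTrailingDegree_le_natDegree Ds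
  rw [htrail]
  omega

end Fermat.Agent.Lib.KW.H530
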