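import Fermat.Agent.Lib.KW.Defs
import Fermat.Agent.Lib.KW.TwoChart
import Fermat.Agent.Lib.KW.H530.Disc
import Fermat.Agent.S24.FFIdentity
import Fermat.Agent.S24.FFDegree
import Fermat.Agent.Lib.RR.Duality
import Fermat.Agent.Lib.RR.H804.CharZero

/-!
# Lib/KW — piece LAT (helper530)

Exact statement of `Fermat.Agent.Lib.KW.Skel.natDegree_discr_inv_chart` (skeleton of helper650,
steps of `coord/KW-LAT-steps.md`): Riemann–Hurwitz in lattice form.  If `s = 0` is not a root of
the discriminant of the `s`-chart, the discriminant of the `s⁻¹`-chart has degree `2n + 2g - 2`.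

Inputs: TWO (`Lib/KW/TwoChart.lean`, helper650), DISC (`H530/Disc.lean`), Riemann–Roch for large
degree (`Lib/RR`), the fundamental identity at the poles (`S24/FFDegree.lean`).
-/

set_option autoImplicit false
set_option linter.unusedSectionVars false

noncomputable section

namespace Fermat.Agent.Lib.KW.H530

open AlgebraicCurve Polynomial IntermediateField
open Fermat.Agent.S24
open Fermat.Agent.Lib.RR

variable {K F : Type*} [Field K] [Field F] [Algebra K F] [IsAlgClosed K] [CharZero K]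

/-! ## Step 2: transition matrices -/

/-- The members of a chart basis are regular where the coordinate is. -/
theorem isChartBasis_ord_nonneg530 {ι : Type*} [Fintype ι] [DecidableEq ι] {u : F} {b : ι → F}
    (hb : IsChartBasis K u b) (i : ι) (v : Place K F) (hv : 0 ≤ v.ord u) : 0 ≤ v.ord (b i) := by
  refine (hb.mem_iff (b i)).mpr ⟨Pi.single i 1, ?_⟩ v hv
  rw [Finset.sum_eq_single i]
  · simp
  · intro j _ hji
    simp [Pi.single_eq_of_ne hji]
  · intro hi
    exact absurd (Finset.mem_univ i) hi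

/-- The members of a chart basis are nonzero. -/
theorem isChartBasis_ne_zero530 {ι : Type*} [Fintype ι] [DecidableEq ι] {u : F} {b : ι → F}
    (hb : IsChartBasis K u b) (i : ι) : b i ≠ 0 := by
  intro h0
  have h1 : ∑ j, aeval u ((Pi.single i 1 : ι → K[X]) j) * b j = 0 := by
    rw [Finset.sum_eq_single i]
    · simp [h0]
    · intro j _ hji
      simp [Pi.single_eq_of_ne hji]
    · intro hi
      exact absurd (Finset.mem_univ i) hi
  have h2 := congrFun (hb.indep _ h1) i
  simp at h2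

/-- Transition from the `u`-chart to the `u⁻¹`-chart: `u⁻ᵐ b_i` lies in the `u⁻¹`-chart for
all large `m`. -/
theorem exists_transition530 {ι : Type*} [Fintype ι] [DecidableEq ι] (u : F) [FF.IsCoord K u]
    (b b' : ι → F) (hb : IsChartBasis K u b) (hb' : IsChartBasis K u⁻¹ b') :
    ∃ m₀ : ℕ, ∀ m : ℕ, m₀ ≤ m → ∃ T : Matrix ι ι K[X],
      ∀ i, u⁻¹ ^ m * b i = ∑ j, aeval u⁻¹ (T i j) * b' j := by
  classical
  have hu : Transcendental K u := FF.IsCoord.transcendental
  have hu0 : u ≠ 0 := FF.t_ne_zero hu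
  have hfin : {v : Place K F | v.ord u < 0}.Finite := FF.finite_setOf_ord_neg hu
  set Z : Finset (Place K F) := hfin.toFinset with hZ
  set m₀ : ℕ := Z.sup (fun v => Finset.univ.sup (fun i => (-(v.ord (b i))).toNat)) with hm
  refine ⟨m₀, fun m hmm => ?_⟩
  have hkey : ∀ i, ∀ v : Place K F, 0 ≤ v.ord u⁻¹ → 0 ≤ v.ord (u⁻¹ ^ m * b i) := by
    intro i v hv
    have hbi := isChartBasis_ne_zero530 hb i
    rw [v.ord_mul (pow_ne_zero _ (inv_ne_zero hu0)) hbi, Fermat.Agent.Lib.RR.ord_pow, v.ord_inv]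
    rw [v.ord_inv] at hv
    by_cases h0 : v.ord u = 0
    · rw [h0]
      have := isChartBasis_ord_nonneg530 hb i v h0.ge
      simpa using this
    · have hneg : v.ord u < 0 := lt_of_le_of_ne (by omega) h0
      have hvZ : v ∈ Z := by
        rw [hZ, Set.Finite.mem_toFinset]
        exact hneg
      have h1 : (-(v.ord (b i))).toNat ≤ m₀ := by
        rw [hm]
        refine le_trans ?_ (Finset.le_sup (f := fun v => Finset.univ.sup
          (fun i => (-(v.ord (b i))).toNat)) hvZ)
        exact Finset.le_sup (f := fun i => (-(v.ord (b i))).toNat) (Finset.mem_univ i)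
      have h2 : -(v.ord (b i)) ≤ (m : ℤ) := by
        have := Int.self_le_toNat (-(v.ord (b i)))
        omega
      have h3 : (m : ℤ) ≤ (m : ℤ) * -(v.ord u) := by
        have : (1 : ℤ) ≤ -(v.ord u) := by omega
        nlinarith
      linarith
  choose T hT using fun i => (hb'.mem_iff (u⁻¹ ^ m * b i)).mp (hkey i)
  exact ⟨Matrix.of T, fun i => by rw [hT i]; rfl⟩

/-! ## Step 5: the lattice `B_s ∩ s ^ m B_t` is a Riemann–Roch space -/

variable (K) in
/-- The divisor `m (s)_∞`. -/
def poleDiv530 (s : F) [FF.IsCoord K s] (m : ℕ) : Divisor K F :=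
  Finsupp.onFinset
    (FF.finite_setOf_ord_neg (K := K) (t := s) FF.IsCoord.transcendental).toFinset
    (fun v => (m : ℤ) * max 0 (-(v.ord s))) (by
      intro v hv
      rw [Set.Finite.mem_toFinset]
      show v.ord s < 0
      by_contra h
      apply hv
      rw [max_eq_left (by omega), mul_zero])

theorem poleDiv530_apply (s : F) [FF.IsCoord K s] (m : ℕ) (v : Place K F) :
    poleDiv530 K s m v = (m : ℤ) * max 0 (-(v.ord s)) := rfl

theorem degree_poleDiv530 (s : F) [FF.IsCoord K s] (m : ℕ) :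
    Divisor.degree (poleDiv530 K s m) = (m : ℤ) * (Module.finrank K⟮s⟯ F : ℤ) := by
  classical
  have hs : Transcendental K s := FF.IsCoord.transcendental
  have hdeg : ∀ v : Place K F, v.deg = 1 := fun v => FF.deg_eq_one v hs
  set Z : Finset (Place K F) := (FF.finite_setOf_ord_neg (K := K) (t := s) hs).toFinset with hZ
  have hsub : (poleDiv530 K s m).support ⊆ Z := Finsupp.support_onFinset_subset
  rw [FF.degree_eq_sum, Finset.sum_subset hsub (fun v _ hv => by
    rw [Finsupp.notMem_support_iff.mp hv, zero_mul])]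
  have hsum := FF.sum_ord_neg_eq_neg_finrank hs Z (fun v => by
    rw [hZ, Set.Finite.mem_toFinset]; rfl)
  have h1 : ∀ v ∈ Z, poleDiv530 K s m v * (v.deg : ℤ) = (m : ℤ) * -(v.ord s) := by
    intro v hv
    have hv' : v.ord s < 0 := by
      rw [hZ, Set.Finite.mem_toFinset] at hv
      exact hv
    rw [poleDiv530_apply, hdeg v, max_eq_right (by omega)]
    simp
  rw [Finset.sum_congr rfl h1, ← Finset.mul_sum, Finset.sum_neg_distrib, hsum, neg_neg]

theorem inf_comap_eq_riemannRochSpace530 {ι : Type*} [Fintype ι] [DecidableEq ι]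
    (s : F) [FF.IsCoord K s] (b b' : ι → F) (hb : IsChartBasis K s b)
    (hb' : IsChartBasis K s⁻¹ b') (m : ℕ) :
    LinearMap.range (chartMap (K := K) s b) ⊓
        (LinearMap.range (chartMap (K := K) s⁻¹ b')).comap (LinearMap.mulLeft K (s⁻¹ ^ m))
      = riemannRochSpace (poleDiv530 K s m) := by
  have hs : Transcendental K s := FF.IsCoord.transcendental
  have hs0 : s ≠ 0 := FF.t_ne_zero hs
  have hB : ∀ f : F, f ∈ LinearMap.range (chartMap (K := K) s b) ↔
      ∀ v : Place K F, 0 ≤ v.ord s → 0 ≤ v.ord f := by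
    intro f
    rw [hb.mem_iff f]
    constructor
    · rintro ⟨p, hp⟩
      exact ⟨p, hp.symm⟩
    · rintro ⟨p, hp⟩
      exact ⟨p, hp.symm⟩
  have hB' : ∀ f : F, f ∈ LinearMap.range (chartMap (K := K) s⁻¹ b') ↔
      ∀ v : Place K F, 0 ≤ v.ord s⁻¹ → 0 ≤ v.ord f := by
    intro f
    rw [hb'.mem_iff f]
    constructor
    · rintro ⟨p, hp⟩
      exact ⟨p, hp.symm⟩
    · rintro ⟨p, hp⟩
      exact ⟨p, hp.symm⟩
  ext f
  rw [Submodule.mem_inf, Submodule.mem_comap, LinearMap.mulLeft_apply, hB, hB',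
    mem_riemannRochSpace_iff]
  constructor
  · rintro ⟨h1, h2⟩ v
    by_cases hf : f = 0
    · exact Or.inl hf
    right
    rw [poleDiv530_apply]
    by_cases hv : 0 ≤ v.ord s
    · rw [max_eq_left (by omega), mul_zero, neg_zero]
      exact h1 v hv
    · have h3 := h2 v (by rw [v.ord_inv]; omega)
      rw [v.ord_mul (pow_ne_zero _ (inv_ne_zero hs0)) hf, Fermat.Agent.Lib.RR.ord_pow,
        v.ord_inv] at h3
      rw [max_eq_right (by omega)]
      linarith
  · intro h
    constructor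
    · intro v hv
      rcases h v with hf | hf
      · rw [hf, v.ord_zero]
      · rw [poleDiv530_apply, max_eq_left (by omega), mul_zero, neg_zero] at hf
        exact hf
    · intro v hv
      rw [v.ord_inv] at hv
      by_cases hf0 : f = 0
      · rw [hf0, mul_zero, v.ord_zero]
      rcases h v with hf | hf
      · exact absurd hf hf0
      · rw [v.ord_mul (pow_ne_zero _ (inv_ne_zero hs0)) hf0, Fermat.Agent.Lib.RR.ord_pow,
          v.ord_inv]
        rw [poleDiv530_apply, max_eq_right (by omega)] at hf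
        linarith

/-! ## Step 7: the discriminants, over `K(s)` -/

/-- `discrF` is the image of the usual discriminant over `K(u)`. -/
theorem discrF_eq_algebraMap_discr530 {ι : Type*} [Fintype ι] [DecidableEq ι] (u : F)
    (b : ι → F) : discrF K u b = algebraMap K⟮u⟯ F (Algebra.discr K⟮u⟯ b) := by
  rw [Algebra.discr_def, RingHom.map_det]
  rfl

/-- The discriminant only depends on the intermediate field. -/
theorem algebraMap_discr_congr530 {ι : Type*} [Fintype ι] [DecidableEq ι]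
    {L L' : IntermediateField K F} (h : L = L') (b : ι → F) :
    algebraMap L F (Algebra.discr L b) = algebraMap L' F (Algebra.discr L' b) := by
  subst h
  rfl

/-- The two-chart formula for one (large) exponent `m`. -/
theorem natDegree_discr_aux530 (s : F) [FF.IsCoord K s] {ι : Type*} [Fintype ι]
    [DecidableEq ι] (b b' : ι → F) (hb : IsChartBasis K s b) (hb' : IsChartBasis K s⁻¹ b')
    (Ds Dt : K[X]) (hDs : discrF K s b = aeval s Ds) (hDt : discrF K s⁻¹ b' = aeval s⁻¹ Dt)
    (hDs0 : Ds.eval 0 ≠ 0) (hDt0 : Dt ≠ 0)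
    (N : ℕ) (Ts : Matrix ι ι K[X]) (hS : ∀ j, s ^ N * b' j = ∑ i, aeval s (Ts j i) * b i)
    (m : ℕ) (Tt : Matrix ι ι K[X])
    (hT : ∀ i, s⁻¹ ^ m * b i = ∑ j, aeval s⁻¹ (Tt i j) * b' j)
    (hm : 2 * (genusFF K F : ℤ) - 2 < (m : ℤ) * (Module.finrank K⟮s⟯ F : ℤ)) :
    (Dt.natDegree : ℤ) = 2 * (m : ℤ) * ((Fintype.card ι : ℤ) - (Module.finrank K⟮s⟯ F : ℤ))
      + 2 * (Fintype.card ι : ℤ) + 2 * (genusFF K F : ℤ) - 2 := by
  have hs : Transcendental K s := FF.IsCoord.transcendental
  have hs0 : s ≠ 0 := FF.t_ne_zero hs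
  have hff1 : FF1 K F := Fermat.Agent.Lib.RR.H804.ff1 hs
  have hTdet : Tt.det ≠ 0 := det_ne_zero_of s hs0 b hb.indep b' m Tt hT
  -- TWO
  have h2 := (finrank_inf_eq s hs0 b hb.indep b' m Tt hT hb'.indep N Ts hS).2
  rw [inf_comap_eq_riemannRochSpace530 s b b' hb hb' m] at h2
  -- Riemann–Roch
  have h3 := ell_eq_of_degree_gt (D := poleDiv530 K s m) (by rw [degree_poleDiv530]; exact hm)
  rw [degree_poleDiv530] at h3
  have h3' : ((Fintype.card ι : ℤ) + (Tt.det.natDegree : ℤ)) =
      (m : ℤ) * (Module.finrank K⟮s⟯ F : ℤ) + 1 - (genusFF K F : ℤ) := by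
    rw [← h3]
    unfold ell
    rw [h2]
    push_cast
    rfl
  -- DISC
  have hinj : Function.Injective (algebraMap K⟮s⟯ F) := (algebraMap K⟮s⟯ F).injective
  have hgen : algebraMap K⟮s⟯ F (AdjoinSimple.gen K s) = s := AdjoinSimple.algebraMap_gen K s
  have hgeninv : algebraMap K⟮s⟯ F (AdjoinSimple.gen K s)⁻¹ = s⁻¹ := by
    rw [map_inv₀, hgen]
  have hs' : Transcendental K (AdjoinSimple.gen K s) := by
    rw [← transcendental_algebraMap_iff hinj, hgen]
    exact hs
  have hDs' : Algebra.discr K⟮s⟯ b = aeval (AdjoinSimple.gen K s) Ds := by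
    apply hinj
    rw [← discrF_eq_algebraMap_discr530, hDs, ← aeval_algebraMap_apply, hgen]
  have hDt' : Algebra.discr K⟮s⟯ b' = aeval (AdjoinSimple.gen K s)⁻¹ Dt := by
    apply hinj
    rw [← algebraMap_discr_congr530 (FF.adjoin_inv_eq (K := K) s) b',
      ← discrF_eq_algebraMap_discr530, hDt, ← aeval_algebraMap_apply, hgeninv]
  have hT' : ∀ i, ((AdjoinSimple.gen K s)⁻¹ ^ m) • b i =
      ∑ j, (aeval (AdjoinSimple.gen K s)⁻¹ (Tt i j)) • b' j := by
    intro i
    rw [Algebra.smul_def, map_pow, hgeninv, hT i]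
    refine Finset.sum_congr rfl fun j _ => ?_
    rw [Algebra.smul_def, ← aeval_algebraMap_apply, hgeninv]
  have hDs0' : Ds ≠ 0 := by
    rintro rfl
    simp at hDs0
  have h4 := natDegree_add_eq (K := K) (F := F) (E := K⟮s⟯) (AdjoinSimple.gen K s) hs' b b'
    Ds Dt hDs' hDt' hDs0' hDt0 m Tt hTdet hT'
  rw [rootMultiplicity_eq_zero (by exact hDs0), add_zero] at h4
  have h4' : (Dt.natDegree : ℤ) + 2 * (Tt.det.natDegree : ℤ) =
      2 * (m : ℤ) * (Fintype.card ι : ℤ) := by
    exact_mod_cast h4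
  linear_combination h4' - 2 * h3'

/-! ## The statement -/

/-- **LAT** (exact statement of `Skel.natDegree_discr_inv_chart`).  Riemann–Hurwitz, lattice form:
if `0` is not a root of the discriminant `Ds` of the `s`-chart, the discriminant `Dt` of the
`s⁻¹`-chart has degree `2 n + 2 g - 2`. -/
theorem natDegree_discr_inv_chart (s : F) [FF.IsCoord K s] {ι : Type*} [Fintype ι]
    [DecidableEq ι] (b b' : ι → F) (hb : IsChartBasis K s b) (hb' : IsChartBasis K s⁻¹ b')
    (Ds Dt : K[X]) (hDs : discrF K s b = aeval s Ds) (hDt : discrF K s⁻¹ b' = aeval s⁻¹ Dt)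
    (hDs0 : Ds.eval 0 ≠ 0) (hDt0 : Dt ≠ 0) :
    (Dt.natDegree : ℤ) = 2 * (Module.finrank K⟮s⟯ F : ℤ) + 2 * (genusFF K F : ℤ) - 2 := by
  have hs : Transcendental K s := FF.IsCoord.transcendental
  have hcoord' : FF.IsCoord K s⁻¹ :=
    ⟨FF.transcendental_inv hs, FF.finiteDimensional_adjoin_inv s⟩
  obtain ⟨m₀, hm₀⟩ := exists_transition530 s b b' hb hb'
  obtain ⟨N, hN⟩ := exists_transition530 s⁻¹ b' b hb' (by rw [inv_inv]; exact hb)
  obtain ⟨Ts, hS⟩ := hN N le_rfl
  simp only [inv_inv] at hS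
  have hn : 0 < Module.finrank K⟮s⟯ F := Module.finrank_pos
  have hn' : (1 : ℤ) ≤ (Module.finrank K⟮s⟯ F : ℤ) := by exact_mod_cast hn
  have hg0 : (0 : ℤ) ≤ (genusFF K F : ℤ) := Int.natCast_nonneg _
  obtain ⟨M, hM0, hMg⟩ : ∃ M : ℕ, m₀ ≤ M ∧ 2 * genusFF K F ≤ M :=
    ⟨max m₀ (2 * genusFF K F), le_max_left _ _, le_max_right _ _⟩
  obtain ⟨T1, hT1⟩ := hm₀ M hM0
  obtain ⟨T2, hT2⟩ := hm₀ (M + 1) (le_trans hM0 (Nat.le_succ _))
  have hM : (2 * (genusFF K F : ℤ)) ≤ (M : ℤ) := by exact_mod_cast hMg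
  have e1 := natDegree_discr_aux530 s b b' hb hb' Ds Dt hDs hDt hDs0 hDt0 N Ts hS
    M T1 hT1 (by nlinarith)
  have e2 := natDegree_discr_aux530 s b b' hb hb' Ds Dt hDs hDt hDs0 hDt0 N Ts hS
    (M + 1) T2 hT2 (by push_cast; nlinarith)
  have hc : (Fintype.card ι : ℤ) = (Module.finrank K⟮s⟯ F : ℤ) := by
    push_cast at e2
    linarith
  rw [hc, sub_self, mul_zero, zero_add] at e1
  exact e1

end Fermat.Agent.Lib.KW.H530
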